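import Fermat.Agent.LindelofDensity.Band
import Fermat.Agent.GuthMaynard.Density

/-!
# Ingham's density theorem under the hypothesis of Lindelöf

A block of length at most `2 T ^ a` is raised to a power of length between `T` and `2 T ^ (1 + a)`;
the mean value theorem then gives `N (σ, T) ≪ T ^ ((2 + 2 a) (1 - σ))` up to logarithms.
-/

set_option autoImplicit false

noncomputable section

namespace FA.LindelofDensity

open Finset Complex
open FA.Backlund (LineBound)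
open FA.ThreePrimes (logOne one_le_logOne)
open FA.HuaCubes (tauPow tauPow_nonneg)
open FA.ZeroFree (ell)
open FA.RiemannMangoldt FA.ExplicitFormula
open FA.Hoheisel (piece piece_eq blockSum blockSum_nonneg exists_piece_sample sum_dyadic countGe)
open FA.Huxley (DensityBound powCoeff norm_powCoeff_le piece_pow tauPow_le_tauPow blockSum_tau_le
  two_le_log ell_le_two_log)
open FA.GuthMaynard (exists_count_of_band_at)
open scoped Real

/-- The power to which a block is raised. -/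
theorem exists_power_le {b a T : ℝ} {U m : ℕ} (hm : 1 ≤ b * m) (hT : 1 ≤ T)
    (hU1 : T ^ b ≤ U) (hU2 : (U : ℝ) ≤ 2 * T ^ a) :
    ∃ p : ℕ, p + 1 ≤ m ∧ T ≤ (U : ℝ) ^ (p + 1) ∧ (U : ℝ) ^ (p + 1) ≤ 2 * T ^ (1 + a) := by
  have hT0 : 0 < T := by linarith
  have hm0 : m ≠ 0 := by rintro rfl; simp at hm; linarith
  obtain ⟨k, rfl⟩ := Nat.exists_eq_succ_of_ne_zero hm0
  have hk : T ≤ (U : ℝ) ^ (k + 1) := by
    refine le_trans ?_ (pow_le_pow_left₀ (by positivity) hU1 _)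
    rw [← Real.rpow_mul_natCast hT0.le]
    exact Real.self_le_rpow_of_one_le hT hm
  have hex : ∃ p : ℕ, T ≤ (U : ℝ) ^ (p + 1) := ⟨k, hk⟩
  classical
  refine ⟨Nat.find hex, Nat.succ_le_succ (Nat.find_min' hex hk), Nat.find_spec hex, ?_⟩
  obtain ⟨p, hp⟩ : ∃ p, p = Nat.find hex := ⟨_, rfl⟩
  rw [← hp]
  rcases Nat.eq_zero_or_pos p with h | h
  · rw [h, zero_add, pow_one]
    refine hU2.trans (mul_le_mul_of_nonneg_left
      (Real.rpow_le_rpow_of_exponent_le hT (by linarith)) two_pos.le)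
  · have hlt : (U : ℝ) ^ (p - 1 + 1) < T :=
      not_le.1 (Nat.find_min hex (show p - 1 < Nat.find hex by omega))
    rw [show p - 1 + 1 = p by omega] at hlt
    calc (U : ℝ) ^ (p + 1) = (U : ℝ) ^ p * U := pow_succ _ _
      _ ≤ T * (2 * T ^ a) := mul_le_mul hlt.le hU2 (Nat.cast_nonneg U) hT0.le
      _ = 2 * T ^ (1 + a) := by rw [Real.rpow_add hT0, Real.rpow_one]; ring

/-- **A short block is rarely large.** -/
theorem exists_block_count {b : ℝ} (hb : 0 < b) (B : ℝ) (hB : 1 ≤ B) :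
    ∃ C, 0 ≤ C ∧ ∃ A : ℕ, ∀ (U : ℕ) (c : ℕ → ℂ) (a σ T : ℝ) (Z : Finset ℂ),
      16 ≤ T → a ≤ 1 → T ^ b ≤ U → (U : ℝ) ≤ 2 * T ^ a → (∀ n, ‖c n‖ ≤ B * n.divisors.card) →
      1 / 2 ≤ σ → σ ≤ 1 →
      (∀ ρ ∈ Z, xiFn ρ = 0 ∧ |ρ.im| ≤ T ∧ σ ≤ ρ.re ∧
        1 ≤ 9 * Real.log T * ‖piece U c ρ.re ρ.im‖) →
      ∑ ρ ∈ Z, (zeroWeight ρ : ℝ) ≤ C * T ^ ((1 + a) * (2 - 2 * σ)) * Real.log T ^ A := by
  obtain ⟨Cs, hCs, hsamp⟩ := exists_piece_sample
  obtain ⟨m, hm⟩ : ∃ m : ℕ, m = ⌈1 / b⌉₊ := ⟨_, rfl⟩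
  have hbm : 1 ≤ b * m := by
    rw [hm, mul_comm, ← div_le_iff₀ hb]
    exact Nat.le_ceil _
  obtain ⟨E, hE⟩ : ∃ E : ℕ, E = 2 ^ (2 * (2 * m)) + 4 := ⟨_, rfl⟩
  obtain ⟨D, hD⟩ : ∃ D, D = B ^ m := ⟨_, rfl⟩
  have hD1 : 1 ≤ D := hD ▸ one_le_pow₀ hB
  refine ⟨9 ^ (2 * m) * m * m *
      (Cs * 2 * (4 * D ^ 2 * ((m : ℝ) + 5) ^ E) * (3 * 2 ^ (m + 1))),
    by positivity, 2 * m + (E + 1), fun U c a σ T Z hT ha hU1 hU2 hc hσ hσ1 hZ => ?_⟩
  have hT11 : 11 ≤ T := by linarith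
  have hT1 : 1 ≤ T := by linarith
  have hT0 : 0 < T := by linarith
  obtain ⟨L, hL⟩ : ∃ L, L = Real.log T := ⟨_, rfl⟩
  have hL2 : 2 ≤ L := hL ▸ two_le_log hT11
  obtain ⟨p, hpm, hlo, hhi⟩ := exists_power_le hbm hT1 hU1 hU2
  obtain ⟨H, hH⟩ : ∃ H : ℕ, H = U ^ (p + 1) := ⟨_, rfl⟩
  have hHR : (U : ℝ) ^ (p + 1) = (H : ℝ) := by rw [hH]; push_cast; rfl
  rw [hHR] at hlo hhi
  have hH1 : 1 ≤ H := by
    have : (0 : ℝ) < H := hT0.trans_le hlo
    exact Nat.cast_pos.1 this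
  obtain ⟨P, hP⟩ : ∃ P, P = T ^ ((1 + a) * (2 - 2 * σ)) := ⟨_, rfl⟩
  rw [← hL, ← hP]
  have hP0 : 0 ≤ P := hP ▸ by positivity
  obtain ⟨w, hw⟩ : ∃ w, w = powCoeff U c p := ⟨_, rfl⟩
  have hwn : ∀ n, ‖w n‖ ≤ D * tauPow (2 * m) n := fun n => by
    rw [hw, hD]
    exact (norm_powCoeff_le (by linarith) hc p n).trans (mul_le_mul (pow_le_pow_right₀ hB hpm)
      (tauPow_le_tauPow (by omega) (by omega) n) (tauPow_nonneg _ n) (by positivity))
  have hblock : ∀ i ∈ range (p + 1), ∑ ρ ∈ Z, (zeroWeight ρ : ℝ) *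
      ‖piece (H * 2 ^ i) w ρ.re ρ.im‖ ^ 2 ≤
        Cs * 2 * (4 * D ^ 2 * ((m : ℝ) + 5) ^ E) * (3 * 2 ^ (m + 1)) * P * L ^ (E + 1) := by
    intro i hi
    have him : i ≤ m := by
      have := mem_range.1 hi
      omega
    obtain ⟨V, hV⟩ : ∃ V : ℕ, V = H * 2 ^ i := ⟨_, rfl⟩
    rw [← hV]
    have hHV : H ≤ V := hV ▸ Nat.le_mul_of_pos_right H (by positivity)
    have hV0 : (0 : ℝ) < V := Nat.cast_pos.2 (lt_of_lt_of_le hH1 hHV)
    have hTV : T ≤ V := hlo.trans (Nat.cast_le.2 hHV)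
    have hVT : (V : ℝ) ≤ 2 ^ (m + 1) * T ^ (1 + a) := by
      rw [hV]
      push_cast
      calc (H : ℝ) * 2 ^ i ≤ 2 * T ^ (1 + a) * 2 ^ m :=
            mul_le_mul hhi (pow_le_pow_right₀ one_le_two him) (by positivity) (by positivity)
        _ = _ := by ring
    refine (hsamp V w σ T Z hT1 (fun ρ hρ => ⟨(hZ ρ hρ).1, (hZ ρ hρ).2.1, (hZ ρ hρ).2.2.1⟩)
      (by linarith)).trans ?_
    have hlog : logOne (2 * V) ≤ ((m : ℝ) + 5) * L := by
      have h2 : T ^ (1 + a) ≤ T ^ (2 : ℝ) := Real.rpow_le_rpow_of_exponent_le hT1 (by linarith)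
      have h1 : Real.log ((2 * V : ℕ) : ℝ) ≤ Real.log (2 ^ (m + 2) * T ^ (2 : ℝ)) := by
        refine Real.log_le_log (by push_cast; positivity) ?_
        push_cast
        calc 2 * (V : ℝ) ≤ 2 * (2 ^ (m + 1) * T ^ (2 : ℝ)) :=
              mul_le_mul_of_nonneg_left (hVT.trans (mul_le_mul_of_nonneg_left h2 (by positivity)))
                two_pos.le
          _ = _ := by ring
      rw [Real.log_mul (by positivity) (by positivity), Real.log_pow, Real.log_rpow hT0,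
        ← hL] at h1
      rw [logOne]
      push_cast at h1 ⊢
      nlinarith [mul_le_mul_of_nonneg_left
        (show Real.log 2 ≤ L by linarith [Real.log_two_lt_d9])
        (show (0 : ℝ) ≤ (m : ℝ) + 2 by positivity)]
    have hbs : blockSum V w σ + blockSum V (fun n => -(Real.log n : ℂ) * w n) σ ≤
        4 * D ^ 2 * (((m : ℝ) + 5) * L) ^ E * (V : ℝ) ^ (1 - 2 * σ) := by
      refine (blockSum_tau_le (lt_of_lt_of_le hH1 hHV) (by linarith) hwn).trans ?_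
      rw [← hE]
      exact mul_le_mul_of_nonneg_right (mul_le_mul_of_nonneg_left (pow_le_pow_left₀
        (zero_le_one.trans (one_le_logOne _)) hlog E) (by positivity)) (by positivity)
    have e1 : (T + ((2 * V : ℕ) : ℝ)) * (V : ℝ) ^ (1 - 2 * σ) ≤ 3 * 2 ^ (m + 1) * P := by
      push_cast
      calc (T + 2 * (V : ℝ)) * (V : ℝ) ^ (1 - 2 * σ)
          ≤ 3 * V * (V : ℝ) ^ (1 - 2 * σ) :=
            mul_le_mul_of_nonneg_right (by linarith) (by positivity)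
        _ = 3 * (V : ℝ) ^ (2 - 2 * σ) := by
            rw [show 2 - 2 * σ = 1 + (1 - 2 * σ) by ring, Real.rpow_add hV0, Real.rpow_one]
            ring
        _ ≤ 3 * (2 ^ (m + 1) * T ^ (1 + a)) ^ (2 - 2 * σ) :=
            mul_le_mul_of_nonneg_left (Real.rpow_le_rpow hV0.le hVT (by linarith)) (by norm_num)
        _ ≤ _ := by
            rw [Real.mul_rpow (by positivity) (by positivity), ← Real.rpow_mul hT0.le, ← hP,
              mul_assoc (3 : ℝ)]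
            gcongr
            exact Real.rpow_le_self_of_one_le (one_le_pow₀ one_le_two) (by linarith)
    have hb0 := add_nonneg (blockSum_nonneg V w σ)
      (blockSum_nonneg V (fun n => -(Real.log n : ℂ) * w n) σ)
    calc Cs * ell T * ((T + ((2 * V : ℕ) : ℝ)) *
          (blockSum V w σ + blockSum V (fun n => -(Real.log n : ℂ) * w n) σ))
        ≤ Cs * (2 * L) * ((T + ((2 * V : ℕ) : ℝ)) *
            (4 * D ^ 2 * (((m : ℝ) + 5) * L) ^ E * (V : ℝ) ^ (1 - 2 * σ))) :=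
          mul_le_mul (mul_le_mul_of_nonneg_left (hL ▸ ell_le_two_log hT11) hCs)
            (mul_le_mul_of_nonneg_left hbs (by positivity))
            (mul_nonneg (by positivity) hb0) (by positivity)
      _ = Cs * 2 * (4 * D ^ 2 * ((m : ℝ) + 5) ^ E) * L ^ (E + 1) *
          ((T + ((2 * V : ℕ) : ℝ)) * (V : ℝ) ^ (1 - 2 * σ)) := by rw [mul_pow]; ring
      _ ≤ Cs * 2 * (4 * D ^ 2 * ((m : ℝ) + 5) ^ E) * L ^ (E + 1) * (3 * 2 ^ (m + 1) * P) :=
          mul_le_mul_of_nonneg_left e1 (by positivity)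
      _ = _ := by ring
  obtain ⟨W, hW⟩ : ∃ W, W = (9 * L) ^ m := ⟨_, rfl⟩
  have hpt : ∀ ρ ∈ Z, (zeroWeight ρ : ℝ) ≤ W ^ 2 * (p + 1 : ℕ) *
      ∑ i ∈ range (p + 1), (zeroWeight ρ : ℝ) * ‖piece (H * 2 ^ i) w ρ.re ρ.im‖ ^ 2 := by
    intro ρ hρ
    rw [← mul_sum, mul_left_comm]
    refine le_mul_of_one_le_right (Nat.cast_nonneg _) ?_
    have h1 := one_le_pow₀ (n := p + 1) (hL ▸ (hZ ρ hρ).2.2.2)
    rw [mul_pow, ← norm_pow, piece_pow, mul_pow 2 U, mul_comm (2 ^ (p + 1)), ← hH, ← hw] at h1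
    have hbig : 1 ≤ W * ‖∑ n ∈ Ioc H (H * 2 ^ (p + 1)), w n * (1 / (n : ℂ) ^ ρ)‖ :=
      h1.trans (mul_le_mul_of_nonneg_right (hW ▸ pow_le_pow_right₀ (by linarith) hpm)
        (norm_nonneg _))
    refine (one_le_pow₀ (n := 2) hbig).trans ?_
    rw [mul_pow, mul_assoc]
    refine mul_le_mul_of_nonneg_left ?_ (sq_nonneg W)
    rw [← sum_dyadic H (p + 1) fun n => w n * (1 / (n : ℂ) ^ ρ)]
    simp only [piece_eq]
    refine (pow_le_pow_left₀ (norm_nonneg _) (norm_sum_le _ _) 2).trans ?_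
    exact sq_sum_le_card_mul_sum_sq.trans (le_of_eq (by rw [card_range]))
  refine ((sum_le_sum hpt).trans (le_of_eq (by rw [← mul_sum, sum_comm]))).trans ?_
  refine (mul_le_mul_of_nonneg_left ((sum_le_card_nsmul _ _ _ hblock).trans (le_of_eq
    (nsmul_eq_mul _ _))) (by positivity)).trans ?_
  rw [card_range, hW]
  have hpm' : ((p + 1 : ℕ) : ℝ) ≤ m := Nat.cast_le.2 hpm
  calc ((9 * L) ^ m) ^ 2 * ((p + 1 : ℕ) : ℝ) * (((p + 1 : ℕ) : ℝ) *
        (Cs * 2 * (4 * D ^ 2 * ((m : ℝ) + 5) ^ E) * (3 * 2 ^ (m + 1)) * P * L ^ (E + 1)))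
      = 9 ^ (2 * m) * ((p + 1 : ℕ) : ℝ) * ((p + 1 : ℕ) : ℝ) *
          (Cs * 2 * (4 * D ^ 2 * ((m : ℝ) + 5) ^ E) * (3 * 2 ^ (m + 1))) * P *
            (L ^ (2 * m) * L ^ (E + 1)) := by
        rw [← pow_mul, mul_pow, mul_comm m 2]
        ring
    _ ≤ 9 ^ (2 * m) * m * m *
          (Cs * 2 * (4 * D ^ 2 * ((m : ℝ) + 5) ^ E) * (3 * 2 ^ (m + 1))) * P *
            (L ^ (2 * m) * L ^ (E + 1)) := by gcongr
    _ = _ := by rw [pow_add L (2 * m)]

/-- **Ingham's theorem**: the hypothesis of Lindelöf gives every exponent above `2`. -/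
theorem exists_densityBound (hLH : ∀ ε : ℝ, 0 < ε → LineBound (1 / 2) ε) {ε : ℝ} (hε : 0 < ε) :
    ∃ C A, DensityBound (2 + ε) C A := by
  obtain ⟨a, ha⟩ : ∃ a, a = min (ε / 2) (1 / 4) := ⟨_, rfl⟩
  have ha0 : 0 < a := ha ▸ lt_min (by linarith) (by norm_num)
  have ha1 : a ≤ 1 / 4 := ha ▸ min_le_right _ _
  have haε : a ≤ ε / 2 := ha ▸ min_le_left _ _
  obtain ⟨δ, hδ⟩ : ∃ δ, δ = min (ε / (2 * (2 + ε))) (1 / 20) := ⟨_, rfl⟩
  have hδ0 : 0 < δ := hδ ▸ lt_min (by positivity) (by norm_num)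
  have hδ1 : δ ≤ 1 / 20 := hδ ▸ min_le_right _ _
  have hδε : δ * (2 * (2 + ε)) ≤ ε := (le_div_iff₀ (by positivity)).1 (hδ ▸ min_le_left _ _)
  obtain ⟨B, hB, T₀, hT₀, hband⟩ := exists_band_blocks hLH ha0 ha1 hδ0 hδ1
  obtain ⟨C₁, hC₁, A, hcount⟩ := exists_block_count (b := a * δ / 4) (by positivity) B hB
  obtain ⟨C, hC, hD⟩ := exists_count_of_band_at (σ₀ := 1 / 2 + δ)
    (e := fun σ => (2 + ε) * (1 - σ)) (A := A + 1) (C₁ := 3 * C₁) (T₀ := T₀) (by positivity)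
    (by linarith) (fun σ hσ => by nlinarith) (fun σ hσ => mul_nonneg (by linarith) (by linarith))
    fun σ T hT hσ hσ1 => by
      have hT16 : 16 ≤ T := hT₀.trans hT
      have hR : 0 ≤ C₁ * T ^ ((2 + ε) * (1 - σ)) * Real.log T ^ A := by
        have := Real.log_nonneg (show 1 ≤ T by linarith)
        positivity
      refine (hband σ T _ hT hσ hR fun U c Z hU1 hU2 hc hZ => (hcount U c a σ T Z hT16
        (by linarith) hU1 hU2 hc (by linarith) hσ1 hZ).trans ?_).trans (le_of_eq (by ring))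
      refine mul_le_mul_of_nonneg_right (mul_le_mul_of_nonneg_left
        (Real.rpow_le_rpow_of_exponent_le (by linarith) ?_) hC₁)
        (pow_nonneg (Real.log_nonneg (by linarith)) A)
      nlinarith [mul_nonneg (show 0 ≤ ε - 2 * a by linarith) (show 0 ≤ 1 - σ by linarith)]
  exact ⟨C, A + 1 + 1, hC, hD⟩

end FA.LindelofDensity

end
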