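import Fermat.Agent.AlmostAllPrimes.Primes
import Fermat.Agent.LindelofDensity.Ingham

/-!
# Primes in almost all short intervals under the hypothesis of Lindelöf

A density exponent `2 + ε` for every `ε > 0` gives every exponent `θ > 0`.
-/

set_option autoImplicit false

noncomputable section

namespace FA.LindelofDensity

open FA.Backlund (LineBound)

/-- A density exponent `c` with `1 - 2/c < θ`, for every `θ > 0`. -/
theorem exists_densityBound_almost (hLH : ∀ ε : ℝ, 0 < ε → LineBound (1 / 2) ε) {θ : ℝ}
    (hθ : 0 < θ) :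
    ∃ c C : ℝ, ∃ A : ℕ, 2 ≤ c ∧ 1 - 2 / c < θ ∧ FA.Huxley.DensityBound c C A := by
  obtain ⟨C, A, hD⟩ := exists_densityBound hLH hθ
  refine ⟨2 + θ, C, A, by linarith, ?_, hD⟩
  rw [one_sub_div (by linarith), div_lt_iff₀ (by linarith)]
  nlinarith

end FA.LindelofDensity

end
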