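import Fermat.Agent.Huxley.Density
import Fermat.Agent.LindelofBacklund.Interpolation

/-!
# Detecting zeros under the hypothesis of Lindelöf

Under the hypothesis of Lindelöf the average of `|ζ|` on the critical line near a zero is at most
`T ^ η`, so at a zero with `re ρ ≥ 1/2 + δ` only the first class is left: a block of length in
`[T ^ (a δ / 4), 2 T ^ a]` of the series is large, `a` as small as we please.
-/

set_option autoImplicit false

noncomputable section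

namespace FA.LindelofDensity

open Finset Complex Filter MeasureTheory
open FA.Backlund (LineBound)
open FA.SelbergCLT (decay decay_nonneg integrable_decay pow_mul_decay exists_norm_cutoff_le)
open FA.RiemannMangoldt FA.ExplicitFormula
open FA.Hoheisel (piece piece_eq norm_molCoeff_le exponent_le_log)
open FA.Huxley (critNorm continuous_critNorm critAvg integrable_critAvg critAvg_nonneg smoothCoeff
  smoothSum_eq_pieces exists_dichotomy_right)
open scoped Topology Real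

/-- `|ζ (1/2 + it)| ≤ C (1 + |t|) ^ η` for every `t`. -/
theorem exists_critNorm_rpow_le {η : ℝ} (hη : 0 ≤ η) (hb : LineBound (1 / 2) η) :
    ∃ C, 0 ≤ C ∧ ∀ t : ℝ, critNorm t ≤ C * (1 + |t|) ^ η := by
  obtain ⟨B, hB⟩ := (isCompact_Icc (a := (-1 : ℝ)) (b := 1)).exists_bound_of_continuousOn
    continuous_critNorm.continuousOn
  obtain ⟨C, hC⟩ := hb
  refine ⟨|B| + |C|, by positivity, fun t => ?_⟩
  have hp : 1 ≤ (1 + |t|) ^ η := Real.one_le_rpow (by linarith [abs_nonneg t]) hη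
  rcases le_or_gt |t| 1 with h | h
  · refine ((le_abs_self _).trans (hB t (abs_le.1 h))).trans ?_
    refine ((le_abs_self B).trans (le_add_of_nonneg_right (abs_nonneg C))).trans ?_
    exact le_mul_of_one_le_right (by positivity) hp
  · have h' := hC t h.le
    simp only [Complex.ofReal_div, Complex.ofReal_one, Complex.ofReal_ofNat] at h'
    refine h'.trans (mul_le_mul ((le_abs_self C).trans (le_add_of_nonneg_left (abs_nonneg B)))
      (Real.rpow_le_rpow (abs_nonneg t) (by linarith) hη) (by positivity) (by positivity))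

theorem one_add_abs_add_rpow_le {η : ℝ} (hη : 0 ≤ η) (t v : ℝ) :
    (1 + |t + v|) ^ η ≤ (1 + |t|) ^ η * (1 + |v|) ^ η := by
  rw [← Real.mul_rpow (by positivity) (by positivity)]
  refine Real.rpow_le_rpow (by positivity) ?_ hη
  nlinarith [abs_add_le t v, mul_nonneg (abs_nonneg t) (abs_nonneg v)]

/-- The average of `|ζ|` on the critical line is `O (|t| ^ η)`. -/
theorem exists_critAvg_rpow_le {η : ℝ} (hη : 0 ≤ η) (hη1 : η ≤ 1) (hb : LineBound (1 / 2) η) :
    ∃ C, 0 ≤ C ∧ ∀ t : ℝ, critAvg t ≤ C * (1 + |t|) ^ η := by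
  obtain ⟨C, hC, h⟩ := exists_critNorm_rpow_le hη hb
  obtain ⟨J, hJ⟩ : ∃ J, J = ∫ v, decay 7 v := ⟨_, rfl⟩
  have hJ0 : 0 ≤ J := hJ ▸ integral_nonneg (decay_nonneg 7)
  refine ⟨C * J, by positivity, fun t => ?_⟩
  have e : ∫ v, C * (1 + |t|) ^ η * decay 7 v = C * (1 + |t|) ^ η * J := by
    rw [integral_const_mul, hJ]
  rw [critAvg, show C * J * (1 + |t|) ^ η = C * (1 + |t|) ^ η * J by ring, ← e]
  refine integral_mono (integrable_critAvg t) ((integrable_decay (by norm_num)).const_mul _)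
    fun v => ?_
  refine (mul_le_mul_of_nonneg_left ((h (t + v)).trans (mul_le_mul_of_nonneg_left
    ((one_add_abs_add_rpow_le hη t v).trans (mul_le_mul_of_nonneg_left
      (Real.rpow_le_self_of_one_le (by linarith [abs_nonneg v]) hη1) (by positivity))) hC))
    (decay_nonneg _ _)).trans (le_of_eq ?_)
  have hd := pow_mul_decay (show 1 ≤ 8 by norm_num) v
  rw [pow_one] at hd
  linear_combination (C * (1 + |t|) ^ η) * hd

/-- **The band through its first class**, under the hypothesis of Lindelöf. -/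
theorem exists_band_blocks (hLH : ∀ ε : ℝ, 0 < ε → LineBound (1 / 2) ε) {a δ : ℝ} (ha : 0 < a)
    (ha1 : a ≤ 1 / 4) (hδ : 0 < δ) (hδ1 : δ ≤ 1 / 20) :
    ∃ B, 1 ≤ B ∧ ∃ T₀ : ℝ, 16 ≤ T₀ ∧ ∀ σ T R : ℝ, T₀ ≤ T → 1 / 2 + δ ≤ σ → 0 ≤ R →
      (∀ (U : ℕ) (c : ℕ → ℂ) (Z : Finset ℂ), T ^ (a * δ / 4) ≤ U → (U : ℝ) ≤ 2 * T ^ a →
        (∀ n, ‖c n‖ ≤ B * n.divisors.card) →
        (∀ ρ ∈ Z, xiFn ρ = 0 ∧ |ρ.im| ≤ T ∧ σ ≤ ρ.re ∧
          1 ≤ 9 * Real.log T * ‖piece U c ρ.re ρ.im‖) →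
        ∑ ρ ∈ Z, (zeroWeight ρ : ℝ) ≤ R) →
      ∑ ρ ∈ ((zerosUpTo T).filter (fun ρ => σ ≤ ρ.re)).filter (fun ρ => T / 2 < |ρ.im|),
        (zeroWeight ρ : ℝ) ≤ 3 * Real.log T * R := by
  obtain ⟨K, hK, hdich⟩ := exists_dichotomy_right hδ hδ1
  obtain ⟨B, hB, hcut⟩ := exists_norm_cutoff_le
  have had : 0 < a * δ := mul_pos ha hδ
  have had1 : a * δ ≤ 1 / 80 := le_trans (mul_le_mul ha1 hδ1 hδ.le (by norm_num)) (by norm_num)
  obtain ⟨Cη, hCη, havg⟩ := exists_critAvg_rpow_le (η := a * δ / 4) (by linarith) (by linarith)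
    (hLH _ (by linarith))
  obtain ⟨T₁, hev⟩ := eventually_atTop.1
    ((((tendsto_rpow_atTop (show 0 < a * δ / 4 by linarith)).eventually_ge_atTop 2).and
      ((tendsto_rpow_atTop (show 0 < a * δ / 2 by linarith)).eventually_gt_atTop
        (2 * K * Cη))).and ((Real.tendsto_log_atTop.const_mul_atTop ha).eventually_ge_atTop 1))
  refine ⟨B, hB, max (max 16 (4 * K)) T₁, le_max_of_le_left (le_max_left _ _),
    fun σ T R hT hσ hR hone => ?_⟩
  obtain ⟨⟨hT2, hTc⟩, hTl⟩ := hev T ((le_max_right _ _).trans hT)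
  have hTK : 4 * K ≤ T := ((le_max_right _ _).trans (le_max_left _ _)).trans hT
  have hT16 : 16 ≤ T := ((le_max_left _ _).trans (le_max_left _ _)).trans hT
  have hT1 : 1 ≤ T := by linarith
  have hT0 : 0 < T := by linarith
  obtain ⟨L, hL⟩ : ∃ L, L = Real.log T := ⟨_, rfl⟩
  rw [← hL] at hTl ⊢
  have hL2 : 2 ≤ L := by
    rw [hL, Real.le_log_iff_exp_le hT0]
    have := Real.exp_one_lt_d9
    rw [show (2 : ℝ) = 1 + 1 by norm_num, Real.exp_add]
    nlinarith [Real.exp_pos 1]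
  -- the parameters
  obtain ⟨X, hX⟩ : ∃ X, X = ⌊T ^ (a * δ / 2)⌋₊ := ⟨_, rfl⟩
  have hX2 : (X : ℝ) ≤ T ^ (a * δ / 2) := hX ▸ Nat.floor_le (by positivity)
  have hX1 : 1 ≤ X := hX ▸ Nat.floor_pos.2 (Real.one_le_rpow hT1 (by linarith))
  have hXlo : T ^ (a * δ / 4) ≤ X := by
    have h1 := Nat.lt_floor_add_one (T ^ (a * δ / 2))
    rw [← hX] at h1
    have h2 : T ^ (a * δ / 4) * 2 ≤ T ^ (a * δ / 2) := by
      rw [show a * δ / 2 = a * δ / 4 + a * δ / 4 by ring, Real.rpow_add hT0]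
      exact mul_le_mul_of_nonneg_left hT2 (by positivity)
    linarith [show (1 : ℝ) ≤ X from Nat.one_le_cast.2 hX1]
  have hsqX : √(X : ℝ) ≤ T ^ (a * δ / 4) := by
    rw [Real.sqrt_le_iff]
    refine ⟨by positivity, hX2.trans (le_of_eq ?_)⟩
    rw [sq, ← Real.rpow_add hT0]
    ring_nf
  obtain ⟨l, hl⟩ : ∃ l, l = a * L := ⟨_, rfl⟩
  have hel : Real.exp l = T ^ a := by
    rw [hl, hL, Real.rpow_def_of_pos hT0, mul_comm]
  obtain ⟨N, hN⟩ : ∃ N, N = ⌊Real.exp (l + 1 / 10)⌋₊ := ⟨_, rfl⟩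
  have hNlo : l + 1 / 10 ≤ Real.log (N + 1 : ℕ) := by
    rw [Real.le_log_iff_exp_le (by positivity)]
    push_cast
    exact (hN ▸ Nat.lt_floor_add_one _).le
  have hNhi : (N : ℝ) ≤ 2 * T ^ a := by
    refine (hN ▸ Nat.floor_le (Real.exp_pos _).le).trans ?_
    rw [Real.exp_add, hel, mul_comm]
    exact mul_le_mul_of_nonneg_right ((Real.exp_bound_div_one_sub_of_interval (by norm_num)
      (by norm_num)).trans (by norm_num)) (by positivity)
  have hTa : 2 * T ^ a ≤ T := by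
    have h1 : T ^ a ≤ T ^ (1 / 4 : ℝ) := Real.rpow_le_rpow_of_exponent_le hT1 ha1
    have h2 : (2 : ℝ) ≤ T ^ (3 / 4 : ℝ) := by
      refine le_trans ?_ (Real.rpow_le_rpow (by norm_num) hT16 (by norm_num))
      rw [show (16 : ℝ) = 2 ^ (4 : ℝ) by norm_num, ← Real.rpow_mul two_pos.le]
      exact (Real.rpow_one 2).symm.le.trans
        (Real.rpow_le_rpow_of_exponent_le one_le_two (by norm_num))
    calc 2 * T ^ a ≤ T ^ (3 / 4 : ℝ) * T ^ (1 / 4 : ℝ) :=
          mul_le_mul h2 h1 (by positivity) (by positivity)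
      _ = T := by rw [← Real.rpow_add hT0]; norm_num
  have hXN : X ≤ N := by
    rw [hN]
    refine Nat.le_floor (hX2.trans ((Real.rpow_le_rpow_of_exponent_le hT1
      (show a * δ / 2 ≤ a by nlinarith)).trans ?_))
    rw [← hel]
    exact Real.exp_le_exp.2 (by linarith)
  obtain ⟨J, hJ⟩ : ∃ J, J = Nat.log 2 (N / X) + 1 := ⟨_, rfl⟩
  have hJN : N ≤ X * 2 ^ J := by
    have h := Nat.lt_pow_succ_log_self one_lt_two (N / X)
    rw [← Nat.succ_eq_add_one] at hJ
    rw [hJ, mul_comm]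
    exact ((Nat.div_lt_iff_lt_mul hX1).1 h).le
  have hJL : (J : ℝ) ≤ 3 * L := by
    have h1 : 2 ^ Nat.log 2 (N / X) ≤ N :=
      (Nat.pow_log_le_self 2 (Nat.div_pos hXN hX1).ne').trans (Nat.div_le_self _ _)
    have h := exponent_le_log hT1 (m := 1) (n := Nat.log 2 (N / X)) (by
      rw [Real.rpow_one]
      have : (2 : ℝ) ^ Nat.log 2 (N / X) ≤ (N : ℝ) := by exact_mod_cast h1
      linarith)
    rw [hJ, hL]
    push_cast
    linarith
  -- the first class is all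
  obtain ⟨c, hc⟩ : ∃ c, c = smoothCoeff X N l := ⟨_, rfl⟩
  have hcB : ∀ n, ‖c n‖ ≤ B * n.divisors.card := fun n => by
    rw [hc, smoothCoeff, norm_mul, mul_comm B]
    exact mul_le_mul (norm_molCoeff_le X N n) (hcut _) (norm_nonneg _) (Nat.cast_nonneg _)
  classical
  obtain ⟨Z, hZdef⟩ : ∃ Z, Z = ((zerosUpTo T).filter (fun ρ => σ ≤ ρ.re)).filter
      (fun ρ => T / 2 < |ρ.im|) := ⟨_, rfl⟩
  rw [← hZdef]
  have hZ : ∀ ρ ∈ Z, xiFn ρ = 0 ∧ |ρ.im| ≤ T ∧ σ ≤ ρ.re ∧ T / 2 < |ρ.im| := fun ρ hρ => by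
    simp only [hZdef, Finset.mem_filter, mem_zerosUpTo] at hρ
    exact ⟨hρ.1.1.1, hρ.1.1.2, hρ.1.2, hρ.2⟩
  obtain ⟨Z₁, hZ₁⟩ : ∃ Z₁ : ℕ → Finset ℂ, ∀ j, Z₁ j = Z.filter
      (fun ρ => 1 ≤ 9 * Real.log T * ‖piece (X * 2 ^ j) c ρ.re ρ.im‖) := ⟨_, fun j => rfl⟩
  have hcover : ∀ ρ ∈ Z, ∃ j ∈ range J, ρ ∈ Z₁ j := fun ρ hρ => by
    obtain ⟨hx, him, hre, hlow⟩ := hZ ρ hρ
    obtain ⟨h0, h1⟩ := xiFn_zero_strip hx
    have hne : ρ ≠ 1 := fun h => by rw [h] at h1; simp at h1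
    have hz : riemannZeta ρ = 0 := (xiFn_eq_zero_iff h0 hne).1 hx
    have him1 : 1 ≤ |ρ.im| := by linarith
    have hpole : K * √(X : ℝ) * Real.exp l ≤ |ρ.im| ^ 2 := by
      have h2 : √(X : ℝ) * Real.exp l ≤ T := by
        calc √(X : ℝ) * Real.exp l ≤ T ^ (a * δ / 4) * T ^ a :=
              hel ▸ mul_le_mul_of_nonneg_right hsqX (Real.exp_pos _).le
          _ ≤ T := by
              rw [← Real.rpow_add hT0]
              exact (Real.rpow_le_rpow_of_exponent_le hT1 (by linarith)).trans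
                (le_of_eq (Real.rpow_one T))
      rw [mul_assoc]
      calc K * (√(X : ℝ) * Real.exp l) ≤ (T / 4) * T :=
            mul_le_mul (by linarith) h2 (by positivity) (by positivity)
        _ = (T / 2) ^ 2 := by ring
        _ ≤ _ := pow_le_pow_left₀ (by linarith) hlow.le 2
    rcases hdich X N l ρ hX1 hXN (by linarith) hNlo hz (hσ.trans hre) h1 him1 hpole with hI | hII
    · rw [smoothSum_eq_pieces hJN hNlo, ← hc] at hI
      have hI' := hI.trans (norm_sum_le _ _)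
      obtain ⟨j, hj, hle⟩ := exists_le_of_sum_le (f := fun _ => 1 / (9 * L)) (s := range J)
        (g := fun j => ‖piece (X * 2 ^ j) c ρ.re ρ.im‖)
        (nonempty_range_iff.2 (by rw [hJ]; exact Nat.succ_ne_zero _)) (by
          rw [sum_const, card_range, nsmul_eq_mul]
          refine le_trans ?_ hI'
          rw [mul_one_div, div_le_iff₀ (by positivity)]
          linarith)
      refine ⟨j, hj, ?_⟩
      rw [hZ₁, Finset.mem_filter, ← hL]
      refine ⟨hρ, ?_⟩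
      rwa [div_le_iff₀' (by positivity)] at hle
    · -- the average of `|ζ|` is too small for that
      exfalso
      have hlow' : T ^ (a * δ / 2) * T ^ (a * δ / 2) ≤ Real.exp (l * (ρ.re - 1 / 2)) := by
        rw [← Real.rpow_add hT0, Real.rpow_def_of_pos hT0, ← hL, hl, Real.exp_le_exp]
        have := mul_le_mul_of_nonneg_left (show δ ≤ ρ.re - 1 / 2 by linarith)
          (show 0 ≤ a * L by positivity)
        linarith
      have hav : critAvg ρ.im ≤ Cη * (2 * T ^ (a * δ / 4)) := by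
        refine (havg ρ.im).trans (mul_le_mul_of_nonneg_left ?_ hCη)
        refine (Real.rpow_le_rpow (by positivity) (show 1 + |ρ.im| ≤ 2 * T by linarith)
          (by linarith)).trans ?_
        rw [Real.mul_rpow two_pos.le hT0.le]
        exact mul_le_mul_of_nonneg_right
          (Real.rpow_le_self_of_one_le one_le_two (by linarith)) (by positivity)
      have hup : K * √(X : ℝ) * critAvg ρ.im ≤ 2 * K * Cη * T ^ (a * δ / 2) := by
        calc K * √(X : ℝ) * critAvg ρ.im ≤ K * T ^ (a * δ / 4) * (Cη * (2 * T ^ (a * δ / 4))) :=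
              mul_le_mul (mul_le_mul_of_nonneg_left hsqX hK.le) hav (critAvg_nonneg _)
                (by positivity)
          _ = 2 * K * Cη * (T ^ (a * δ / 4) * T ^ (a * δ / 4)) := by ring
          _ = _ := by rw [← Real.rpow_add hT0]; ring_nf
      have hpos : 0 < T ^ (a * δ / 2) := Real.rpow_pos_of_pos hT0 _
      nlinarith [hlow'.trans (hII.trans hup), mul_lt_mul_of_pos_right hTc hpos]
  have hsplit : ∑ ρ ∈ Z, (zeroWeight ρ : ℝ) ≤
      ∑ j ∈ range J, ∑ ρ ∈ Z₁ j, (zeroWeight ρ : ℝ) := by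
    simp only [hZ₁, Finset.sum_filter]
    rw [Finset.sum_comm]
    refine sum_le_sum fun ρ hρ => ?_
    have h0 : ∀ j ∈ range J, (0 : ℝ) ≤
        if 1 ≤ 9 * Real.log T * ‖piece (X * 2 ^ j) c ρ.re ρ.im‖ then (zeroWeight ρ : ℝ) else 0 :=
      fun j _ => by split_ifs <;> simp
    obtain ⟨j, hj, h⟩ := hcover ρ hρ
    rw [hZ₁, Finset.mem_filter] at h
    refine le_trans (le_of_eq ?_) (single_le_sum h0 hj)
    rw [if_pos h.2]
  have hU : ∀ j ∈ range J, T ^ (a * δ / 4) ≤ ((X * 2 ^ j : ℕ) : ℝ) ∧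
      ((X * 2 ^ j : ℕ) : ℝ) ≤ 2 * T ^ a := fun j hj => by
    refine ⟨hXlo.trans (Nat.cast_le.2 (Nat.le_mul_of_pos_right X (by positivity))),
      le_trans (Nat.cast_le.2 ?_) hNhi⟩
    refine (Nat.mul_le_mul_left X ((Nat.pow_le_pow_right two_pos (show j ≤ Nat.log 2 (N / X) by
      have := mem_range.1 hj; omega)).trans (Nat.pow_log_le_self 2
        (Nat.div_pos hXN hX1).ne'))).trans ?_
    exact Nat.mul_div_le N X
  refine hsplit.trans (((sum_le_card_nsmul _ _ R fun j hj => ?_).trans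
    (le_of_eq (nsmul_eq_mul _ _))).trans ?_)
  · refine hone (X * 2 ^ j) c (Z₁ j) (hU j hj).1 (hU j hj).2 hcB fun ρ hρ => ?_
    rw [hZ₁, Finset.mem_filter] at hρ
    exact ⟨(hZ ρ hρ.1).1, (hZ ρ hρ.1).2.1, (hZ ρ hρ.1).2.2.1, hρ.2⟩
  · rw [card_range]
    exact mul_le_mul_of_nonneg_right hJL hR

end FA.LindelofDensity

end
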