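import Fermat.Agent.LindelofDensity.Band
import Fermat.Agent.LindelofBacklund.Count
import Fermat.Agent.SiegelWalfisz.Perron
import Fermat.Agent.StarkEffective.ZetaBound

/-!
# Smoothed sums of `n ^ (-z)` under the hypothesis of Lindelöf

`∑_{n ≤ y} (1 - n / y) n ^ (-z)` is the inverse Mellin integral of `ζ (z + w) / (w (w + 1))`. On
the line `re (z + w) = 1/2` the integral is `O (√y |im z| ^ η)`, the pole gives `O (y / |im z|)`.
-/

set_option autoImplicit false

noncomputable section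

namespace FA.LindelofDensity

open Finset Complex Filter MeasureTheory
open FA.Backlund (LineBound exists_strip_le)
open FA.SelbergCLT (verticals_of_boxInt riemannZeta_eq_of_ne_one)
open FA.ExplicitFormula (boxInt boxInt_residue)
open FA.Huxley (critNorm)
open FA.SiegelWalfisz (kernelMul smoothSum smoothSum_eq)
open scoped Topology Real

theorem den_ge_sq {δ h : ℝ} (hδ : 0 < δ) (hδ1 : δ ≤ 1 / 2) (hh : δ ≤ h) (v : ℝ) :
    δ / 4 * (1 + |v|) ^ 2 ≤ ‖((h : ℂ) + v * I) * ((h : ℂ) + v * I + 1)‖ := by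
  rw [norm_mul]
  have h1 : δ * (1 + |v|) / 2 ≤ ‖(h : ℂ) + v * I‖ := by
    have hre : h ≤ ‖(h : ℂ) + v * I‖ := by
      simpa [abs_of_pos (hδ.trans_le hh)] using Complex.abs_re_le_norm ((h : ℂ) + v * I)
    have him : |v| ≤ ‖(h : ℂ) + v * I‖ := by
      simpa using Complex.abs_im_le_norm ((h : ℂ) + v * I)
    nlinarith [abs_nonneg v, norm_nonneg ((h : ℂ) + v * I)]
  have h2 : (1 + |v|) / 2 ≤ ‖(h : ℂ) + v * I + 1‖ := by
    have hre : h + 1 ≤ ‖(h : ℂ) + v * I + 1‖ := by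
      simpa [abs_of_pos (show 0 < h + 1 by linarith)] using
        Complex.abs_re_le_norm ((h : ℂ) + v * I + 1)
    have him : |v| ≤ ‖(h : ℂ) + v * I + 1‖ := by
      simpa using Complex.abs_im_le_norm ((h : ℂ) + v * I + 1)
    linarith
  calc δ / 4 * (1 + |v|) ^ 2 = δ * (1 + |v|) / 2 * ((1 + |v|) / 2) := by ring
    _ ≤ _ := mul_le_mul h1 h2 (by positivity) (norm_nonneg _)

theorem rpow_sub_two_le_decay {η : ℝ} (hη : η ≤ 1 / 2) (v : ℝ) :
    (1 + |v|) ^ η / (1 + |v|) ^ 2 ≤ ZeroFree.decay v := by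
  have h0 : (0 : ℝ) < 1 + |v| := by positivity
  rw [← Real.rpow_natCast _ 2, ← Real.rpow_sub h0, ZeroFree.decay]
  refine (Real.rpow_le_rpow_of_exponent_le (by linarith [abs_nonneg v])
    (show η - ((2 : ℕ) : ℝ) ≤ ((2 : ℕ) : ℝ) * -(3 / 4) by push_cast; linarith)).trans ?_
  rw [Real.rpow_mul h0.le, Real.rpow_natCast]
  refine Real.rpow_le_rpow_of_nonpos (by positivity) ?_ (by norm_num)
  rw [add_sq, sq_abs]
  linarith [abs_nonneg v]

/-- **The smoothed sum of `n ^ (-z)`.** -/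
theorem exists_smoothSum_le (hLH : ∀ ε : ℝ, 0 < ε → LineBound (1 / 2) ε) {δ η : ℝ} (hδ : 0 < δ)
    (hδ1 : δ ≤ 1 / 2) (hη : 0 < η) (hη1 : η ≤ 1 / 2) :
    ∃ C, 0 ≤ C ∧ ∀ (y : ℝ) (z : ℂ), 1 ≤ y → 0 ≤ z.re → z.re ≤ 1 / 2 - δ →
      ‖smoothSum (fun n => (n : ℂ) ^ (-z)) y‖ ≤
        C * (√y * (1 + |z.im|) ^ η + y / (1 + |z.im|)) := by
  obtain ⟨C, hC, hcrit⟩ := exists_critNorm_rpow_le hη.le (hLH η hη)
  obtain ⟨Cs, hCs, hstrip⟩ := exists_strip_le hLH hη
  obtain ⟨J, hJ⟩ : ∃ J, J = ∫ v, ZeroFree.decay v := ⟨_, rfl⟩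
  have hJ0 : 0 ≤ J := hJ ▸ integral_nonneg fun v => (ZeroFree.decay_pos v).le
  refine ⟨4 * C / δ * J + 4, by positivity, fun y z hy hz0 hz1 => ?_⟩
  have hy0 : 0 < y := by linarith
  obtain ⟨t, ht⟩ : ∃ t, t = z.im := ⟨_, rfl⟩
  obtain ⟨h, hh⟩ : ∃ h : ℝ, h = 1 / 2 - z.re := ⟨_, rfl⟩
  have hh0 : δ ≤ h := by linarith
  have hh1 : h ≤ 1 / 2 := by linarith
  obtain ⟨ρ, hρ⟩ : ∃ ρ : ℂ, ρ = 1 - z := ⟨_, rfl⟩
  have hρre : ρ.re = 1 - z.re := by simp [hρ]
  have hρim : ρ.im = -t := by simp [hρ, ht]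
  rw [← ht]
  -- the integrand
  obtain ⟨φ, hφ⟩ : ∃ φ : ℂ → ℂ, φ = fun w => (y : ℂ) ^ w * riemannZeta₁ (z + w) / (w * (w + 1)) :=
    ⟨_, rfl⟩
  obtain ⟨U, hU⟩ : ∃ U : Set ℂ, U = {w : ℂ | 0 < w.re} := ⟨_, rfl⟩
  have hφd : DifferentiableOn ℂ φ U := fun w hw => by
    rw [hU] at hw
    have hw' : 0 < w.re := hw
    rw [hφ]
    refine (((differentiableAt_id.const_cpow (Or.inl (Complex.ofReal_ne_zero.2 hy0.ne'))).mul
      ((differentiable_riemannZeta₁ _).comp w (differentiableAt_id.const_add z))).div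
      (differentiableAt_id.mul (differentiableAt_id.add_const 1))
      (mul_ne_zero ?_ ?_)).differentiableWithinAt
    · intro h'; simp [h'] at hw'
    · intro h'
      have := congrArg Complex.re h'
      simp at this
      linarith
  have hker : ∀ w : ℂ, w ≠ ρ →
      φ w / (w - ρ) = kernelMul (fun w => riemannZeta (z + w)) y w := fun w hw => by
    have h1 : z + w ≠ 1 := fun e => hw (by rw [hρ, ← e]; ring)
    rw [hφ, kernelMul, riemannZeta_eq_of_ne_one h1, show z + w - 1 = w - ρ by rw [hρ]; ring]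
    ring
  have hnot : ∀ u v : ℝ, (u = h ∨ u = 2) → (u : ℂ) + (v : ℂ) * I ≠ ρ := fun u v hu e => by
    have := congrArg Complex.re e
    simp [hρre] at this
    rcases hu with hu | hu <;> subst hu <;> linarith
  have hnorm : ∀ u v : ℝ, (u : ℂ) + (v : ℂ) * I ≠ ρ →
      ‖φ ((u : ℂ) + (v : ℂ) * I) / ((u : ℂ) + (v : ℂ) * I - ρ)‖ =
        y ^ u * ‖riemannZeta (((z.re + u : ℝ) : ℂ) + ((t + v : ℝ) : ℂ) * I)‖ /
          ‖((u : ℂ) + (v : ℂ) * I) * ((u : ℂ) + (v : ℂ) * I + 1)‖ := fun u v hne => by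
    rw [hker _ hne, kernelMul, norm_div, norm_mul,
      norm_cpow_eq_rpow_re_of_pos hy0, show z + ((u : ℂ) + (v : ℂ) * I) =
        ((z.re + u : ℝ) : ℂ) + ((t + v : ℝ) : ℂ) * I by
          conv_lhs => rw [← re_add_im z, ← ht]
          push_cast; ring]
    simp
  -- the two lines
  have hleft : ∀ v : ℝ, ‖φ ((h : ℂ) + (v : ℂ) * I) / ((h : ℂ) + (v : ℂ) * I - ρ)‖ ≤
      4 * C / δ * y ^ h * (1 + |t|) ^ η * ZeroFree.decay v := fun v => by
    rw [hnorm h v (hnot h v (Or.inl rfl)), show z.re + h = 1 / 2 by rw [hh]; ring,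
      show (((1 / 2 : ℝ)) : ℂ) = 1 / 2 by push_cast; ring]
    have hden := den_ge_sq hδ hδ1 hh0 v
    have h2 : 0 < δ / 4 * (1 + |v|) ^ 2 := by positivity
    refine (div_le_div₀ (by positivity) (mul_le_mul_of_nonneg_left ((hcrit (t + v)).trans
      (mul_le_mul_of_nonneg_left (one_add_abs_add_rpow_le hη.le t v) hC)) (by positivity))
      h2 hden).trans ?_
    calc y ^ h * (C * ((1 + |t|) ^ η * (1 + |v|) ^ η)) / (δ / 4 * (1 + |v|) ^ 2)
        = 4 * C / δ * y ^ h * (1 + |t|) ^ η * ((1 + |v|) ^ η / (1 + |v|) ^ 2) := by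
          field_simp
      _ ≤ _ := mul_le_mul_of_nonneg_left (rpow_sub_two_le_decay hη1 v) (by positivity)
  have hright : ∀ v : ℝ, ‖φ (((2 : ℝ) : ℂ) + (v : ℂ) * I) / (((2 : ℝ) : ℂ) + (v : ℂ) * I - ρ)‖ ≤
      8 / δ * y ^ (2 : ℝ) * ZeroFree.decay v := fun v => by
    rw [hnorm 2 v (hnot 2 v (Or.inr rfl))]
    have hden := den_ge_sq hδ hδ1 (show δ ≤ 2 by linarith) v
    have h2 : 0 < δ / 4 * (1 + |v|) ^ 2 := by positivity
    have hz : ‖riemannZeta (((z.re + 2 : ℝ) : ℂ) + ((t + v : ℝ) : ℂ) * I)‖ ≤ 2 := by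
      refine (FA.DLVP.norm_zeta_le_real (σ := z.re + 2) (by linarith) (by simp)).trans
        ((FA.StarkEff.norm_riemannZeta_le (by linarith)).trans ?_)
      have : 1 / (z.re + 2 - 1) ≤ 1 := by rw [div_le_one (by linarith)]; linarith
      linarith
    refine (div_le_div₀ (by positivity) (mul_le_mul_of_nonneg_left hz (by positivity))
      h2 hden).trans ?_
    calc y ^ (2 : ℝ) * 2 / (δ / 4 * (1 + |v|) ^ 2)
        = 8 / δ * y ^ (2 : ℝ) * ((1 + |v|) ^ (0 : ℝ) / (1 + |v|) ^ 2) := by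
          rw [Real.rpow_zero]; field_simp; ring
      _ ≤ _ := mul_le_mul_of_nonneg_left (rpow_sub_two_le_decay (by norm_num) v) (by positivity)
  obtain ⟨F, hF⟩ : ∃ F : ℂ → ℂ, F = fun w => φ w / (w - ρ) := ⟨_, rfl⟩
  have hcont : ∀ u : ℝ, 0 < u → (u = h ∨ u = 2) →
      Continuous fun v : ℝ => F ((u : ℂ) + (v : ℂ) * I) := fun u hu0 hu => by
    refine continuous_iff_continuousAt.2 fun v => ?_
    have h1 : (u : ℂ) + (v : ℂ) * I ∈ U := by rw [hU]; simpa using hu0
    rw [hF]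
    refine ContinuousAt.comp (g := fun w : ℂ => φ w / (w - ρ))
      (f := fun v : ℝ => (u : ℂ) + (v : ℂ) * I) ?_ (by fun_prop)
    exact (hφd.differentiableAt ((hU ▸ isOpen_lt continuous_const
      Complex.continuous_re).mem_nhds h1)).continuousAt.div (by fun_prop)
      (sub_ne_zero.2 (hnot u v hu))
  have hIl : Integrable fun v : ℝ => F ((h : ℂ) + (v : ℂ) * I) :=
    (ZeroFree.integrable_decay.const_mul _).mono'
      (hcont h (hδ.trans_le hh0) (Or.inl rfl)).aestronglyMeasurable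
      (Eventually.of_forall fun v => by rw [hF]; exact hleft v)
  have hIr : Integrable fun v : ℝ => F (((2 : ℝ) : ℂ) + (v : ℂ) * I) :=
    (ZeroFree.integrable_decay.const_mul _).mono'
      (hcont 2 two_pos (Or.inr rfl)).aestronglyMeasurable
      (Eventually.of_forall fun v => by rw [hF]; exact hright v)
  have hbox : ∀ᶠ R in atTop, boxInt F h 2 R = 2 * π * I * φ ρ := by
    filter_upwards [eventually_gt_atTop |t|] with R hR
    rw [hF, boxInt_residue (hU ▸ isOpen_lt continuous_const Complex.continuous_re) hφd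
      (fun s hs _ => by rw [hU]; exact lt_of_lt_of_le (hδ.trans_le hh0) hs.1)
      ((abs_nonneg t).trans hR.le) (by rw [hρre, hh]; linarith) (by rw [hρre]; linarith)
      (by rw [hρim, abs_neg]; exact hR.ne), if_pos (by rw [hρim, abs_neg]; exact hR)]
  have hhor : ∀ᶠ R in atTop, ∀ u ∈ Set.uIcc h 2,
      ‖F ((u : ℂ) + ((-R : ℝ) : ℂ) * I)‖ ≤ 2 * y ^ (2 : ℝ) * Cs / R ∧
        ‖F ((u : ℂ) + (R : ℂ) * I)‖ ≤ 2 * y ^ (2 : ℝ) * Cs / R := by
    filter_upwards [eventually_ge_atTop (|t| + 2)] with R hR u hu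
    rw [Set.uIcc_of_le (by linarith)] at hu
    have hR0 : 0 < R := by linarith [abs_nonneg t]
    have key : ∀ v : ℝ, |v| = R →
        ‖F ((u : ℂ) + (v : ℂ) * I)‖ ≤ 2 * y ^ (2 : ℝ) * Cs / R := fun v hv => by
      have hne : (u : ℂ) + (v : ℂ) * I ≠ ρ := fun e => by
        have := congrArg Complex.im e
        simp [hρim] at this
        rw [this, abs_neg] at hv
        linarith
      have htv : 1 ≤ |t + v| := by
        have h1 := abs_sub_abs_le_abs_sub v (-t)
        rw [abs_neg, sub_neg_eq_add, add_comm v t] at h1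
        linarith
      have hzb : ‖riemannZeta (((z.re + u : ℝ) : ℂ) + ((t + v : ℝ) : ℂ) * I)‖ ≤ Cs * (2 * R) := by
        refine (hstrip _ _ (by linarith [hu.1]) (by linarith [hu.2]) htv).trans
          (mul_le_mul_of_nonneg_left ?_ hCs)
        exact (Real.rpow_le_self_of_one_le htv (by linarith)).trans
          (by linarith [abs_add_le t v])
      have hw : R ≤ ‖(u : ℂ) + (v : ℂ) * I‖ := by
        simpa [hv] using Complex.abs_im_le_norm ((u : ℂ) + (v : ℂ) * I)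
      have hw1 : R ≤ ‖(u : ℂ) + (v : ℂ) * I + 1‖ := by
        simpa [hv] using Complex.abs_im_le_norm ((u : ℂ) + (v : ℂ) * I + 1)
      rw [hF, hnorm u v hne, norm_mul]
      refine (div_le_div₀ (by positivity) (mul_le_mul
        (Real.rpow_le_rpow_of_exponent_le hy hu.2) hzb (norm_nonneg _) (by positivity))
        (mul_pos hR0 hR0) (mul_le_mul hw hw1 hR0.le (norm_nonneg _))).trans (le_of_eq ?_)
      field_simp
    exact ⟨key _ (by rw [abs_neg, abs_of_pos hR0]), key _ (abs_of_pos hR0)⟩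
  have hshift := verticals_of_boxInt hIl hIr hbox (tendsto_const_nhds.div_atTop tendsto_id) hhor
  -- the Perron formula
  have hterm : ∀ s : ℂ, LSeries.term (fun n => (n : ℂ) ^ (-z)) s = LSeries.term 1 (z + s) := by
    intro s
    funext n
    rcases eq_or_ne n 0 with rfl | hn
    · simp
    · rw [LSeries.term_of_ne_zero hn, LSeries.term_of_ne_zero hn, Pi.one_apply,
        cpow_add _ _ (Nat.cast_ne_zero.2 hn), cpow_neg]
      field_simp
  have hperron := smoothSum_eq (f := fun n => (n : ℂ) ^ (-z))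
    (F := fun w => riemannZeta (z + w)) hy0 one_lt_two (by
      rw [LSeriesSummable, hterm]
      exact LSeriesSummable_one_iff.2 (by simp; linarith))
    (fun s hs => by
      rw [LSeries, hterm]
      exact LSeries_one_eq_riemannZeta (by simp; linarith))
  have e2 : ∀ v : ℝ, kernelMul (fun w => riemannZeta (z + w)) y (((2 : ℝ) : ℂ) + (v : ℂ) * I) =
      F (((2 : ℝ) : ℂ) + (v : ℂ) * I) := fun v => by
    rw [hF]
    exact (hker _ (hnot 2 v (Or.inr rfl))).symm
  simp only [e2] at hperron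
  have hmain : ∫ v : ℝ, F (((2 : ℝ) : ℂ) + (v : ℂ) * I) =
      (∫ v : ℝ, F ((h : ℂ) + (v : ℂ) * I)) + 2 * π * φ ρ :=
    mul_left_cancel₀ I_ne_zero (by linear_combination hshift)
  rw [hmain] at hperron
  have hint : ‖∫ v : ℝ, F ((h : ℂ) + (v : ℂ) * I)‖ ≤ 4 * C / δ * J * (√y * (1 + |t|) ^ η) := by
    refine (norm_integral_le_of_norm_le (ZeroFree.integrable_decay.const_mul _)
      (Eventually.of_forall fun v => by rw [hF]; exact hleft v)).trans ?_
    rw [integral_const_mul, ← hJ]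
    have hyh : y ^ h ≤ √y := by
      rw [Real.sqrt_eq_rpow]
      exact Real.rpow_le_rpow_of_exponent_le hy hh1
    calc 4 * C / δ * y ^ h * (1 + |t|) ^ η * J = 4 * C / δ * J * (y ^ h * (1 + |t|) ^ η) := by ring
      _ ≤ _ := by gcongr
  have hres : ‖φ ρ‖ ≤ 4 * (y / (1 + |t|)) := by
    have hz' : z + ρ = 1 := by rw [hρ]; ring
    rw [hφ, norm_div, norm_mul, hz', riemannZeta₁_one, norm_one, mul_one,
      norm_cpow_eq_rpow_re_of_pos hy0, norm_mul]
    have h1 : (1 + |t|) / 3 ≤ ‖ρ‖ := by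
      have hre : 1 / 2 ≤ ‖ρ‖ := le_trans (by rw [hρre]; linarith) (Complex.re_le_norm ρ)
      have him : |t| ≤ ‖ρ‖ := by
        have := Complex.abs_im_le_norm ρ
        rwa [hρim, abs_neg] at this
      linarith
    have h2 : 1 ≤ ‖ρ + 1‖ :=
      le_trans (by rw [add_re, hρre, one_re]; linarith) (Complex.re_le_norm (ρ + 1))
    have h3 : y ^ ρ.re ≤ y := by
      conv_rhs => rw [← Real.rpow_one y]
      exact Real.rpow_le_rpow_of_exponent_le hy (by rw [hρre]; linarith)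
    refine (div_le_div₀ hy0.le h3 (by positivity)
      (mul_le_mul h1 h2 zero_le_one (norm_nonneg _))).trans ?_
    rw [mul_one, div_div_eq_mul_div, mul_div_assoc', mul_comm y]
    gcongr
    norm_num
  rw [hperron, norm_smul, Real.norm_of_nonneg (by positivity)]
  refine (mul_le_mul_of_nonneg_left (norm_add_le _ _) (by positivity)).trans ?_
  rw [norm_mul, norm_mul, Complex.norm_two, Complex.norm_real,
    Real.norm_of_nonneg Real.pi_pos.le, mul_add,
    show 1 / (2 * π) * (2 * π * ‖φ ρ‖) = ‖φ ρ‖ by field_simp]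
  have hpi : 1 / (2 * π) ≤ 1 := by
    rw [div_le_one (by positivity)]
    linarith [Real.pi_gt_three]
  refine (add_le_add ((mul_le_of_le_one_left (norm_nonneg _) hpi).trans hint) hres).trans ?_
  have h1 : 0 ≤ 4 * C / δ * J * (y / (1 + |t|)) := by positivity
  have h2 : 0 ≤ √y * (1 + |t|) ^ η := by positivity
  linarith

end FA.LindelofDensity

end
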