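import Fermat.Agent.LindelofDensity.Ingham
import Fermat.Agent.LindelofDensity.Kernel

/-!
# The theorem of Halász and Turán

In the inequality of Halász and Montgomery with the weights `1 - n / 4 U` the sums over pairs are
`O (√U T ^ η)` off the diagonal under the hypothesis of Lindelöf. For `σ > 3/4` this makes a short
block large at `O (T ^ ε)` separated points only.
-/

set_option autoImplicit false

noncomputable section

namespace FA.LindelofDensity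

open Finset Complex Filter
open FA.Backlund (LineBound)
open FA.ThreePrimes (logOne one_le_logOne)
open FA.RiemannMangoldt FA.ExplicitFormula
open FA.Hoheisel (piece piece_eq countGe)
open FA.Huxley (sum_inv_spaced_le conj_natCast_cpow sum_sq_tau_le two_le_log)
open FA.GuthMaynard (exists_count_of_band_at exists_weight_le exists_log_pow_le)
open FA.SiegelWalfisz (smoothSum)
open scoped Topology Real ComplexConjugate

/-- **The inequality of Halász and Montgomery under the hypothesis of Lindelöf.** -/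
theorem exists_halasz_montgomery (hLH : ∀ ε : ℝ, 0 < ε → LineBound (1 / 2) ε) {δ η : ℝ}
    (hδ : 0 < δ) (hδ1 : δ ≤ 1 / 2) (hη : 0 < η) (hη1 : η ≤ 1 / 2) :
    ∃ C, 0 ≤ C ∧ ∀ (S : Finset ℕ) (s : ℕ → ℂ) (σ T V G : ℝ) (U : ℕ) (b : ℕ → ℂ),
      1 ≤ T → 0 ≤ V → 1 ≤ U → 3 / 4 + δ / 2 ≤ σ →
      (∀ r ∈ S, σ ≤ (s r).re ∧ (s r).re ≤ 1 ∧ |(s r).im| ≤ T) →
      Set.InjOn (fun r => ⌊|(s r).im|⌋₊) S →
      (∀ r ∈ S, V ≤ ‖∑ n ∈ Ioc U (2 * U), b n * (1 / (n : ℂ) ^ s r)‖) →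
      ∑ n ∈ Ioc U (2 * U), (n : ℝ) ^ (-(2 * σ)) * ‖b n‖ ^ 2 ≤ G →
      (S.card * V) ^ 2 ≤ C * G * ((S.card : ℝ) ^ 2 * (√(U : ℝ) * T ^ η) +
        S.card * (U * (1 + Real.log (T + 2)))) := by
  obtain ⟨C, hC, hker⟩ := exists_smoothSum_le hLH hδ hδ1 hη hη1
  refine ⟨32 * C, by positivity, fun S s σ T V G U b hT hV hU hσ hs hinj hbig hG => ?_⟩
  obtain ⟨P, hP⟩ : ∃ P : ℕ → ℂ, ∀ r, P r = ∑ n ∈ Ioc U (2 * U), b n * (1 / (n : ℂ) ^ s r) :=
    ⟨_, fun r => rfl⟩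
  obtain ⟨u, hu⟩ : ∃ u : ℕ → ℂ, ∀ r, u r = conj (P r) / (‖P r‖ : ℂ) := ⟨_, fun r => rfl⟩
  have hu1 : ∀ r, ‖u r‖ ≤ 1 := fun r => by
    rw [hu, norm_div, Complex.norm_real, norm_norm, Complex.norm_conj]
    exact div_self_le_one _
  have huP : ∀ r, u r * P r = (‖P r‖ : ℂ) := fun r => by
    rw [hu, div_mul_eq_mul_div, Complex.conj_mul']
    by_cases h : P r = 0
    · simp [h]
    · rw [sq, mul_div_cancel_right₀ _ (ofReal_ne_zero.2 (norm_ne_zero_iff.2 h))]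
  obtain ⟨A, hA⟩ : ∃ A : ℕ → ℂ, ∀ n, A n = ∑ r ∈ S, u r * (n : ℂ) ^ (-(s r - σ)) :=
    ⟨_, fun n => rfl⟩
  have h1 : ((∑ r ∈ S, ‖P r‖ : ℝ) : ℂ) =
      ∑ n ∈ Ioc U (2 * U), b n * (n : ℂ) ^ (-(σ : ℂ)) * A n := by
    rw [ofReal_sum, sum_congr rfl fun r _ => (huP r).symm]
    simp only [hP, hA, mul_sum]
    rw [sum_comm]
    refine sum_congr rfl fun n hn => sum_congr rfl fun r _ => ?_
    rw [one_div, ← cpow_neg, show -(s r) = -(σ : ℂ) + -(s r - σ) by ring,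
      cpow_add _ _ (Nat.cast_ne_zero.2 (show n ≠ 0 by have := (mem_Ioc.1 hn).1; omega))]
    ring
  have h2 : (∑ r ∈ S, ‖P r‖) ^ 2 ≤ G * ∑ n ∈ Ioc U (2 * U), ‖A n‖ ^ 2 := by
    have h0 : ∑ r ∈ S, ‖P r‖ ≤ ∑ n ∈ Ioc U (2 * U), (n : ℝ) ^ (-σ) * ‖b n‖ * ‖A n‖ := by
      have h := congrArg norm h1
      rw [Complex.norm_real, Real.norm_of_nonneg (sum_nonneg fun r _ => norm_nonneg _)] at h
      rw [h]
      refine (norm_sum_le _ _).trans (le_of_eq (sum_congr rfl fun n hn => ?_))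
      rw [norm_mul, norm_mul, norm_natCast_cpow_of_pos (lt_of_le_of_lt (Nat.zero_le U)
        (mem_Ioc.1 hn).1), neg_re, ofReal_re]
      ring
    refine (pow_le_pow_left₀ (sum_nonneg fun r _ => norm_nonneg _) h0 2).trans
      ((sum_mul_sq_le_sq_mul_sq _ _ _).trans (mul_le_mul_of_nonneg_right
        (le_trans (le_of_eq (sum_congr rfl fun n _ => ?_)) hG)
        (sum_nonneg fun n _ => sq_nonneg _)))
    rw [mul_pow, ← Real.rpow_mul_natCast (Nat.cast_nonneg n)]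
    push_cast
    ring_nf
  -- the weights
  obtain ⟨M, hM⟩ : ∃ M : ℕ, M = 4 * U := ⟨_, rfl⟩
  have hM0 : (0 : ℝ) < M := Nat.cast_pos.2 (by omega)
  have hwt : ∑ n ∈ Ioc U (2 * U), ‖A n‖ ^ 2 ≤
      2 * ∑ n ∈ Icc 1 M, (1 - (n : ℝ) / M) * ‖A n‖ ^ 2 := by
    rw [mul_sum]
    refine le_trans (sum_le_sum fun n hn => ?_) (sum_le_sum_of_subset_of_nonneg
      (s := Ioc U (2 * U)) (fun n hn => by rw [mem_Ioc] at hn; rw [Finset.mem_Icc]; omega)
      fun n hn _ => mul_nonneg zero_le_two (mul_nonneg ?_ (sq_nonneg _)))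
    · have : (n : ℝ) / M ≤ 1 / 2 := by
        rw [div_le_iff₀ hM0, hM]
        push_cast
        have h : (n : ℝ) ≤ 2 * U := by exact_mod_cast (mem_Ioc.1 hn).2
        linarith
      nlinarith [sq_nonneg ‖A n‖]
    · rw [sub_nonneg, div_le_one hM0]
      exact Nat.cast_le.2 (Finset.mem_Icc.1 hn).2
  have h3 : ∑ n ∈ Icc 1 M, (1 - (n : ℝ) / M) * ‖A n‖ ^ 2 ≤
      16 * C * ((S.card : ℝ) ^ 2 * (√(U : ℝ) * T ^ η) +
        S.card * (U * (1 + Real.log (T + 2)))) := by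
    have e : ((∑ n ∈ Icc 1 M, (1 - (n : ℝ) / M) * ‖A n‖ ^ 2 : ℝ) : ℂ) =
        ∑ r ∈ S, ∑ x ∈ S, u r * conj (u x) *
          smoothSum (fun n => (n : ℂ) ^ (-((s r - σ) + conj (s x - σ)))) M := by
      rw [ofReal_sum]
      simp only [smoothSum, Nat.floor_natCast, mul_sum]
      conv_rhs => enter [2, r]; rw [sum_comm]
      rw [sum_comm (s := S)]
      refine sum_congr rfl fun n hn => ?_
      rw [ofReal_mul, ofReal_pow, ← Complex.mul_conj', hA, map_sum, sum_mul_sum, mul_sum]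
      refine sum_congr rfl fun r _ => ?_
      rw [mul_sum]
      refine sum_congr rfl fun x _ => ?_
      rw [map_mul, conj_natCast_cpow (Finset.mem_Icc.1 hn).1, neg_add,
        cpow_add _ _ (Nat.cast_ne_zero.2 (show n ≠ 0 by
          have := (Finset.mem_Icc.1 hn).1; omega)), map_neg]
      ring
    have h := congrArg norm e
    rw [Complex.norm_real, Real.norm_of_nonneg (sum_nonneg fun n hn => mul_nonneg (by
      rw [sub_nonneg, div_le_one hM0]
      exact Nat.cast_le.2 (Finset.mem_Icc.1 hn).2) (sq_nonneg _))] at h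
    rw [h]
    refine (norm_sum_le _ _).trans ((sum_le_card_nsmul _ _
      (16 * C * (S.card * (√(U : ℝ) * T ^ η) + U * (1 + Real.log (T + 2)))) fun r hr => ?_).trans
        (le_of_eq (by rw [nsmul_eq_mul]; ring)))
    refine (norm_sum_le _ _).trans ((sum_le_sum (g := fun x =>
      C * (6 * (√(U : ℝ) * T ^ η) + 4 * U * (1 / (1 + |(s r).im - (s x).im|))))
      fun x hx => ?_).trans ?_)
    · rw [norm_mul, norm_mul, Complex.norm_conj]
      refine (mul_le_of_le_one_left (norm_nonneg _)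
        (mul_le_one₀ (hu1 r) (norm_nonneg _) (hu1 x))).trans ?_
      refine (hker M _ (by rw [hM]; exact_mod_cast (by omega : 1 ≤ 4 * U)) ?_ ?_).trans ?_
      · simp only [add_re, sub_re, conj_re, ofReal_re]
        linarith [(hs r hr).1, (hs x hx).1]
      · simp only [add_re, sub_re, conj_re, ofReal_re]
        linarith [(hs r hr).2.1, (hs x hx).2.1]
      rw [show ((s r - σ) + conj (s x - σ)).im = (s r).im - (s x).im by simp; ring, hM]
      push_cast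
      refine mul_le_mul_of_nonneg_left (add_le_add ?_ (le_of_eq (by ring))) hC
      rw [Real.sqrt_mul (by norm_num), show √(4 : ℝ) = 2 by
        rw [show (4 : ℝ) = 2 ^ 2 by norm_num, Real.sqrt_sq two_pos.le]]
      have hD : |(s r).im - (s x).im| ≤ 2 * T :=
        (abs_sub _ _).trans (by linarith [(hs r hr).2.2, (hs x hx).2.2])
      have h6 : (1 + |(s r).im - (s x).im|) ^ η ≤ 3 * T ^ η := by
        refine (Real.rpow_le_rpow (by positivity) (show _ ≤ 3 * T by linarith) hη.le).trans ?_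
        rw [Real.mul_rpow (by norm_num) (by linarith)]
        exact mul_le_mul_of_nonneg_right
          (Real.rpow_le_self_of_one_le (by norm_num) (by linarith)) (by positivity)
      calc 2 * √(U : ℝ) * (1 + |(s r).im - (s x).im|) ^ η ≤ 2 * √(U : ℝ) * (3 * T ^ η) :=
            mul_le_mul_of_nonneg_left h6 (by positivity)
        _ = _ := by ring
    · rw [← mul_sum, sum_add_distrib, sum_const, nsmul_eq_mul, ← mul_sum, mul_comm 16 C,
        mul_assoc C 16]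
      refine mul_le_mul_of_nonneg_left ?_ hC
      have h5 := mul_le_mul_of_nonneg_left (sum_inv_spaced_le S (fun x => (s x).im)
        (show 0 ≤ T by linarith) (fun x hx => (hs x hx).2.2) hinj hr)
        (show (0 : ℝ) ≤ 4 * U by positivity)
      nlinarith [show 0 ≤ (S.card : ℝ) * (√(U : ℝ) * T ^ η) by positivity]
  have h4 : (S.card : ℝ) * V ≤ ∑ r ∈ S, ‖P r‖ := by
    rw [← nsmul_eq_mul]
    exact card_nsmul_le_sum _ _ _ fun r hr => hP r ▸ hbig r hr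
  have hG0 : 0 ≤ G := (sum_nonneg fun n _ => by positivity).trans hG
  refine (pow_le_pow_left₀ (by positivity) h4 2).trans (h2.trans ((mul_le_mul_of_nonneg_left
    (hwt.trans (mul_le_mul_of_nonneg_left h3 zero_le_two)) hG0).trans (le_of_eq (by ring))))

/-- **A short block is large at few zeros right of `3/4`.** -/
theorem exists_block_rare (hLH : ∀ ε : ℝ, 0 < ε → LineBound (1 / 2) ε) {b δ : ℝ} (hb : 0 < b)
    (hb1 : b ≤ 1) (hδ : 0 < δ) (hδ1 : δ ≤ 1 / 4) (B : ℝ) (hB : 1 ≤ B) :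
    ∃ C, 0 ≤ C ∧ ∃ T₁ : ℝ, 16 ≤ T₁ ∧ ∀ (U : ℕ) (c : ℕ → ℂ) (a σ T : ℝ) (Z : Finset ℂ),
      T₁ ≤ T → a ≤ 1 → T ^ b ≤ U → (U : ℝ) ≤ 2 * T ^ a → (∀ n, ‖c n‖ ≤ B * n.divisors.card) →
      3 / 4 + δ ≤ σ →
      (∀ ρ ∈ Z, xiFn ρ = 0 ∧ |ρ.im| ≤ T ∧ σ ≤ ρ.re ∧
        1 ≤ 9 * Real.log T * ‖piece U c ρ.re ρ.im‖) →
      ∑ ρ ∈ Z, (zeroWeight ρ : ℝ) ≤ C * T ^ a * Real.log T ^ 8 := by
  obtain ⟨η, hη⟩ : ∃ η, η = b * δ := ⟨_, rfl⟩
  have hη0 : 0 < η := hη ▸ mul_pos hb hδ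
  have hη1 : η ≤ 1 / 4 := hη ▸ le_trans (mul_le_mul hb1 hδ1 hδ.le zero_le_one) (by norm_num)
  obtain ⟨Ch, hCh, hhm⟩ := exists_halasz_montgomery hLH (δ := 2 * δ) (by linarith) (by linarith)
    hη0 (by linarith)
  obtain ⟨Cw, hCw, hweight⟩ := exists_weight_le
  obtain ⟨Cl, hCl, hlog⟩ := exists_log_pow_le 6 (half_pos hη0)
  obtain ⟨T₁, hev⟩ := eventually_atTop.1
    ((tendsto_rpow_atTop (half_pos hη0)).eventually_ge_atTop (2 * Ch * (81 * 162 * B ^ 2) * Cl))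
  refine ⟨Cw * (81 * 4 * Ch * 162 * B ^ 2 * 3), by positivity, max 16 T₁, le_max_left _ _,
    fun U c a σ T Z hT ha hU1 hU2 hc hσ hZ => ?_⟩
  have hT16 : 16 ≤ T := (le_max_left _ _).trans hT
  have hbig := hev T ((le_max_right _ _).trans hT)
  have hT1 : 1 ≤ T := by linarith
  have hT0 : 0 < T := by linarith
  obtain ⟨L, hL⟩ : ∃ L, L = Real.log T := ⟨_, rfl⟩
  have hL2 : 2 ≤ L := hL ▸ two_le_log (by linarith)
  rw [← hL]
  rcases Z.eq_empty_or_nonempty with rfl | ⟨ρ₀, hρ₀⟩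
  · simp only [sum_empty]
    positivity
  have hσ1 : σ ≤ 1 := (hZ ρ₀ hρ₀).2.2.1.trans (xiFn_zero_strip (hZ ρ₀ hρ₀).1).2.le
  have hU : 1 ≤ U := by
    have : (1 : ℝ) ≤ U := (Real.one_le_rpow hT1 hb.le).trans hU1
    exact Nat.one_le_cast.1 this
  have hU0 : (0 : ℝ) < U := Nat.cast_pos.2 hU
  obtain ⟨S, hS⟩ : ∃ S : Finset ℕ, S = Z.image fun ρ => ⌊|ρ.im|⌋₊ := ⟨_, rfl⟩
  have hex : ∀ k ∈ S, ∃ ρ, ρ ∈ Z ∧ ⌊|ρ.im|⌋₊ = k := fun k hk => by
    rw [hS, mem_image] at hk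
    exact hk
  choose! s hs using hex
  obtain ⟨g, hg⟩ : ∃ g, g = 162 * B ^ 2 * L ^ 4 := ⟨_, rfl⟩
  have hg0 : 0 ≤ g := hg ▸ by positivity
  have hG : ∑ n ∈ Ioc U (2 * U), (n : ℝ) ^ (-(2 * σ)) * ‖c n‖ ^ 2 ≤
      g * (U : ℝ) ^ (1 - 2 * σ) := by
    refine (sum_sq_tau_le hU (by linarith) (e := 1) (D := B) fun n =>
      (hc n).trans_eq (by rw [FA.HuaCubes.tauPow, pow_one])).trans ?_
    have h4 : logOne (2 * U) ≤ 3 * L := by
      have h1 : Real.log ((2 * U : ℕ) : ℝ) ≤ Real.log (T ^ 2) := by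
        refine Real.log_le_log (by push_cast; positivity) ?_
        push_cast
        have : T ^ a ≤ T := (Real.rpow_le_rpow_of_exponent_le hT1 ha).trans (le_of_eq (by simp))
        nlinarith
      rw [Real.log_pow, ← hL] at h1
      rw [logOne]
      push_cast at h1 ⊢
      linarith
    have h5 : logOne (2 * U) ^ 2 ^ (2 * 1) ≤ (3 * L) ^ 4 :=
      pow_le_pow_left₀ (zero_le_one.trans (one_le_logOne _)) h4 4
    rw [hg, show (1 : ℝ) - 2 * σ = 1 + -(2 * σ) by ring, Real.rpow_add hU0, Real.rpow_one]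
    refine (mul_le_mul_of_nonneg_right (mul_le_mul_of_nonneg_right
      (mul_le_mul_of_nonneg_left h5 (sq_nonneg B)) (Nat.cast_nonneg _)) (by positivity)).trans
      (le_of_eq ?_)
    push_cast
    ring
  have h := hhm S s σ T (1 / (9 * L)) (g * (U : ℝ) ^ (1 - 2 * σ)) U c hT1 (by positivity) hU
    (by linarith) (fun k hk => ⟨(hZ _ (hs k hk).1).2.2.1,
      (xiFn_zero_strip (hZ _ (hs k hk).1).1).2.le, (hZ _ (hs k hk).1).2.1⟩)
    (fun x hx y hy e => (hs x (mem_coe.1 hx)).2.symm.trans (e.trans (hs y (mem_coe.1 hy)).2))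
    (fun k hk => by
      rw [← piece_eq, div_le_iff₀' (by positivity), hL]
      exact (hZ _ (hs k hk).1).2.2.2) hG
  -- off the diagonal
  have hoff : Ch * (g * (U : ℝ) ^ (1 - 2 * σ)) * (√(U : ℝ) * T ^ η) ≤ 1 / (2 * (9 * L) ^ 2) := by
    have h1 : (U : ℝ) ^ (1 - 2 * σ) * √(U : ℝ) ≤ T ^ (-(2 * η)) := by
      rw [Real.sqrt_eq_rpow, ← Real.rpow_add hU0,
        show -(2 * η) = b * (-(2 * δ)) by rw [hη]; ring, Real.rpow_mul hT0.le]
      refine le_trans (Real.rpow_le_rpow_of_exponent_le (z := -(2 * δ)) (Nat.one_le_cast.2 hU)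
        (by linarith)) ?_
      exact Real.rpow_le_rpow_of_nonpos (Real.rpow_pos_of_pos hT0 _) hU1 (by linarith)
    have h2 : Ch * g * T ^ (-η) ≤ 1 / (2 * (9 * L) ^ 2) := by
      rw [Real.rpow_neg hT0.le, mul_inv_le_iff₀ (by positivity), div_mul_eq_mul_div,
        le_div_iff₀ (by positivity), one_mul, hg]
      have h3 := hlog T hT1
      rw [← hL] at h3
      calc Ch * (162 * B ^ 2 * L ^ 4) * (2 * (9 * L) ^ 2)
          = 2 * Ch * (81 * 162 * B ^ 2) * L ^ 6 := by ring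
        _ ≤ 2 * Ch * (81 * 162 * B ^ 2) * (Cl * T ^ (η / 2)) := by gcongr
        _ = 2 * Ch * (81 * 162 * B ^ 2) * Cl * T ^ (η / 2) := by ring
        _ ≤ T ^ (η / 2) * T ^ (η / 2) := mul_le_mul_of_nonneg_right hbig (by positivity)
        _ = _ := by rw [← Real.rpow_add hT0]; ring_nf
    calc Ch * (g * (U : ℝ) ^ (1 - 2 * σ)) * (√(U : ℝ) * T ^ η)
        = Ch * g * ((U : ℝ) ^ (1 - 2 * σ) * √(U : ℝ)) * T ^ η := by ring
      _ ≤ Ch * g * T ^ (-(2 * η)) * T ^ η := by gcongr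
      _ = Ch * g * T ^ (-η) := by
          rw [mul_assoc, ← Real.rpow_add hT0]
          ring_nf
      _ ≤ _ := h2
  -- the diagonal
  have hdiag : g * (U : ℝ) ^ (1 - 2 * σ) * (U * (1 + Real.log (T + 2))) ≤
      g * (2 * T ^ a) * (3 * L) := by
    have h1 : 1 + Real.log (T + 2) ≤ 3 * L := by
      have : Real.log (T + 2) ≤ Real.log (T ^ 2) := Real.log_le_log (by positivity) (by nlinarith)
      rw [Real.log_pow, ← hL] at this
      push_cast at this
      linarith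
    have h2 : (U : ℝ) ^ (1 - 2 * σ) * U ≤ 2 * T ^ a := by
      refine le_trans ?_ hU2
      rw [← Real.rpow_add_one hU0.ne']
      exact (Real.rpow_le_rpow_of_exponent_le (Nat.one_le_cast.2 hU) (by linarith)).trans
        (le_of_eq (Real.rpow_one _))
    have hl0 : 0 ≤ 1 + Real.log (T + 2) := by
      linarith [Real.log_nonneg (show 1 ≤ T + 2 by linarith)]
    calc g * (U : ℝ) ^ (1 - 2 * σ) * (U * (1 + Real.log (T + 2)))
        = g * ((U : ℝ) ^ (1 - 2 * σ) * U) * (1 + Real.log (T + 2)) := by ring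
      _ ≤ _ := by gcongr
  have hR : (S.card : ℝ) ≤ 81 * 4 * Ch * 162 * B ^ 2 * 3 * T ^ a * L ^ 7 := by
    obtain ⟨R, hRdef⟩ : ∃ R : ℝ, R = S.card := ⟨_, rfl⟩
    rw [← hRdef] at h ⊢
    have hR0 : 0 ≤ R := hRdef ▸ Nat.cast_nonneg _
    rcases hR0.eq_or_lt with h0 | h0
    · rw [← h0]; positivity
    have h' : R * (R / (2 * (9 * L) ^ 2)) ≤ R * (Ch * (g * (2 * T ^ a) * (3 * L))) := by
      have a1 := mul_le_mul_of_nonneg_left hoff (sq_nonneg R)
      have a2 := mul_le_mul_of_nonneg_left hdiag (mul_nonneg hR0 hCh)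
      have e1 : (R * (1 / (9 * L))) ^ 2 =
          2 * (R * (R / (2 * (9 * L) ^ 2))) := by field_simp
      have e2 : R ^ 2 * (1 / (2 * (9 * L) ^ 2)) = R * (R / (2 * (9 * L) ^ 2)) := by ring
      nlinarith [h, a1, a2, e1, e2]
    have h'' := le_of_mul_le_mul_left h' h0
    rw [div_le_iff₀ (by positivity)] at h''
    refine h''.trans (le_of_eq ?_)
    rw [hg]
    ring
  refine (hweight T Z (by linarith) fun ρ hρ => ⟨(hZ ρ hρ).1, (hZ ρ hρ).2.1⟩).trans ?_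
  rw [← hS, ← hL]
  refine (mul_le_mul_of_nonneg_left hR (by positivity)).trans (le_of_eq ?_)
  ring

/-- **The theorem of Halász and Turán**: few zeros right of `3/4 + δ`. -/
theorem exists_halasz_turan (hLH : ∀ ε : ℝ, 0 < ε → LineBound (1 / 2) ε) {δ ε : ℝ} (hδ : 0 < δ)
    (hε : 0 < ε) : ∃ C, 0 ≤ C ∧ ∀ σ T : ℝ, 2 ≤ T → 3 / 4 + δ ≤ σ →
      (countGe σ T : ℝ) ≤ C * T ^ ε := by
  obtain ⟨d, hd⟩ : ∃ d, d = min (δ / 2) (1 / 20) := ⟨_, rfl⟩
  have hd0 : 0 < d := hd ▸ lt_min (by linarith) (by norm_num)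
  have hd1 : d ≤ 1 / 20 := hd ▸ min_le_right _ _
  have hdδ : d ≤ δ / 2 := hd ▸ min_le_left _ _
  obtain ⟨a, ha⟩ : ∃ a, a = min (ε / 2) (1 / 4) := ⟨_, rfl⟩
  have ha0 : 0 < a := ha ▸ lt_min (by linarith) (by norm_num)
  have ha1 : a ≤ 1 / 4 := ha ▸ min_le_right _ _
  have haε : a ≤ ε / 2 := ha ▸ min_le_left _ _
  obtain ⟨B, hB, T₀, hT₀, hband⟩ := exists_band_blocks hLH ha0 ha1 hd0 hd1
  obtain ⟨C₁, hC₁, T₁, hT₁, hrare⟩ := exists_block_rare hLH (b := a * d / 4) (by positivity)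
    (by nlinarith) hd0 (by linarith) B hB
  obtain ⟨Ll, hLl, hll⟩ := exists_log_pow_le (9 + 1) (half_pos hε)
  classical
  obtain ⟨e, he⟩ : ∃ e : ℝ → ℝ, e = fun σ => if σ < 3 / 4 + δ then 1 else ε / 2 := ⟨_, rfl⟩
  obtain ⟨C, hC, hD⟩ := exists_count_of_band_at (σ₀ := 3 / 4 + d) (e := e) (A := 9)
    (C₁ := 3 * C₁) (T₀ := max T₀ T₁) (by positivity) (le_max_of_le_left (by linarith))
    (fun σ hσ => by rw [he]; simp only [if_pos (show σ < 3 / 4 + δ by linarith), le_refl])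
    (fun σ _ => by rw [he]; simp only; split_ifs <;> linarith)
    fun σ T hT hσ hσ1 => by
      have hT1 : 1 ≤ T := by linarith [(le_max_left _ _).trans hT]
      have hl0 := Real.log_nonneg hT1
      have hR : 0 ≤ C₁ * T ^ e σ * Real.log T ^ 8 := by positivity
      refine (hband σ T _ ((le_max_left _ _).trans hT) (by linarith) hR
        fun U c Z hU1 hU2 hc hZ => (hrare U c a σ T Z ((le_max_right _ _).trans hT) (by linarith)
          hU1 hU2 hc hσ hZ).trans ?_).trans (le_of_eq (by ring))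
      refine mul_le_mul_of_nonneg_right (mul_le_mul_of_nonneg_left
        (Real.rpow_le_rpow_of_exponent_le hT1 ?_) hC₁) (pow_nonneg hl0 8)
      rw [he]
      simp only
      split_ifs <;> linarith
  refine ⟨C * Ll, by positivity, fun σ T hT hσ => (hD σ T hT).trans ?_⟩
  have hT0 : 0 < T := by linarith
  rw [show e σ = ε / 2 by rw [he]; simp only [if_neg (not_lt.2 hσ)]]
  calc C * T ^ (ε / 2) * Real.log T ^ (9 + 1) ≤ C * T ^ (ε / 2) * (Ll * T ^ (ε / 2)) := by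
        gcongr; exact hll T (by linarith)
    _ = C * Ll * (T ^ (ε / 2) * T ^ (ε / 2)) := by ring
    _ = _ := by rw [← Real.rpow_add hT0]; ring_nf

end FA.LindelofDensity

end
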