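import Fermat.Agent.LindelofDensity.HalaszTuran
import Fermat.Agent.Huxley.ShortIntervals

/-!
# Primes in short intervals under the hypothesis of Lindelöf

Every density exponent above `2` gives every exponent `θ > 1/2` for the primes in `(x, x + x ^ θ]`.
-/

set_option autoImplicit false

noncomputable section

namespace FA.LindelofDensity

open Filter
open FA.Backlund (LineBound)
open FA.Hoheisel (countGe prime_short_of_count gap_of_prime_short exists_countGe_trivial)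
open FA.Huxley (short_of_density)
open FA.GuthMaynard (exists_log_pow_le)

/-- `N (σ, T) ≪ T ^ (2 (1 - σ) + ε)` for every `σ`. -/
theorem exists_density_eps (hLH : ∀ ε : ℝ, 0 < ε → LineBound (1 / 2) ε) {ε : ℝ} (hε : 0 < ε) :
    ∃ C, 0 ≤ C ∧ ∀ σ T : ℝ, 2 ≤ T → (countGe σ T : ℝ) ≤ C * T ^ (2 * (1 - σ) + ε) := by
  obtain ⟨C, A, hC, hD⟩ := exists_densityBound hLH (half_pos hε)
  obtain ⟨C₀, hC₀, htriv⟩ := exists_countGe_trivial
  obtain ⟨La, hLa, hla⟩ := exists_log_pow_le A (half_pos hε)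
  obtain ⟨L₁, hL₁, hl1⟩ := exists_log_pow_le 1 hε
  refine ⟨C * La + C₀ * L₁, by positivity, fun σ T hT => ?_⟩
  have hT1 : 1 ≤ T := by linarith
  have hT0 : 0 < T := by linarith
  obtain ⟨P, hP⟩ : ∃ P, P = T ^ (2 * (1 - σ) + ε) := ⟨_, rfl⟩
  rw [← hP]
  have hP0 : 0 ≤ P := hP ▸ Real.rpow_nonneg hT0.le _
  rcases le_or_gt σ 0 with hσ | hσ
  · refine (htriv σ T hT).trans ?_
    have h : T * Real.log T ≤ L₁ * P := by
      have h1 := hl1 T hT1
      rw [pow_one] at h1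
      calc T * Real.log T ≤ T * (L₁ * T ^ ε) := mul_le_mul_of_nonneg_left h1 hT0.le
        _ = L₁ * (T ^ (1 : ℝ) * T ^ ε) := by rw [Real.rpow_one]; ring
        _ ≤ L₁ * P := by
          rw [← Real.rpow_add hT0, hP]
          exact mul_le_mul_of_nonneg_left (Real.rpow_le_rpow_of_exponent_le hT1 (by linarith)) hL₁
    calc C₀ * (T * Real.log T) ≤ C₀ * (L₁ * P) := mul_le_mul_of_nonneg_left h hC₀
      _ = C₀ * L₁ * P := by ring
      _ ≤ _ := by gcongr; exact le_add_of_nonneg_left (by positivity)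
  · refine (hD σ T hT).trans ?_
    have hl0 := Real.log_nonneg hT1
    calc C * T ^ ((2 + ε / 2) * (1 - σ)) * Real.log T ^ A
        ≤ C * T ^ ((2 + ε / 2) * (1 - σ)) * (La * T ^ (ε / 2)) := by gcongr; exact hla T hT1
      _ = C * La * (T ^ ((2 + ε / 2) * (1 - σ)) * T ^ (ε / 2)) := by ring
      _ ≤ C * La * P := by
        rw [← Real.rpow_add hT0, hP]
        exact mul_le_mul_of_nonneg_left (Real.rpow_le_rpow_of_exponent_le hT1 (by nlinarith))
          (by positivity)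
      _ ≤ _ := by gcongr; exact le_add_of_nonneg_right (by positivity)

/-- `θ (x + h) - θ x ∼ h` and `π (x + h) - π x ∼ h / log x` for `h ≥ x ^ θ`, `θ > 1/2`. -/
theorem short_of_lindelof (hLH : ∀ ε : ℝ, 0 < ε → LineBound (1 / 2) ε) {θ : ℝ} (hθ : 1 / 2 < θ) :
    ∀ ε : ℝ, 0 < ε → ∀ᶠ x in atTop, ∀ h : ℝ, x ^ θ ≤ h → h ≤ x →
      |Chebyshev.theta (x + h) - Chebyshev.theta x - h| ≤ ε * h ∧
        |((Nat.primeCounting ⌊x + h⌋₊ : ℝ) - Nat.primeCounting ⌊x⌋₊) * Real.log x - h| ≤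
          ε * h := by
  obtain ⟨μ, hμ⟩ : ∃ μ, μ = (min θ (3 / 4) + 1 / 2) / 2 := ⟨_, rfl⟩
  have h1 : μ < θ := by rw [hμ]; linarith [min_le_left θ (3 / 4)]
  have h2 : 1 / 2 < μ := by rw [hμ]; linarith [lt_min hθ (show (1 / 2 : ℝ) < 3 / 4 by norm_num)]
  have h3 : μ ≤ 3 / 4 := by rw [hμ]; linarith [min_le_right θ (3 / 4)]
  have hc : (2 : ℝ) < 1 / (1 - μ) := by rw [lt_div_iff₀ (by linarith)]; linarith
  obtain ⟨C, A, hD⟩ := exists_densityBound hLH (show 0 < 1 / (1 - μ) - 2 by linarith)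
  rw [add_sub_cancel] at hD
  exact short_of_density FA.Hoheisel.freeRate hc.le hD (by rw [one_div_one_div]; linarith)

/-- `p_{n+1} - p_n ≤ p_n ^ θ` for large `n`, `θ > 1/2`. -/
theorem gap_of_lindelof (hLH : ∀ ε : ℝ, 0 < ε → LineBound (1 / 2) ε) {θ : ℝ} (hθ : 1 / 2 < θ) :
    ∀ᶠ n in atTop, (Nat.nth Nat.Prime (n + 1) : ℝ) - Nat.nth Nat.Prime n ≤
      (Nat.nth Nat.Prime n : ℝ) ^ θ := by
  obtain ⟨x₀, -, h⟩ := prime_short_of_count (θ := min θ 1) (min_le_right _ _)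
    (short_of_lindelof hLH (lt_min hθ (by norm_num)))
  filter_upwards [gap_of_prime_short h] with n hn
  refine hn.trans (Real.rpow_le_rpow_of_exponent_le ?_ (min_le_left _ _))
  exact Nat.one_le_cast.2 (Nat.prime_nth_prime n).one_le

end FA.LindelofDensity

end
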